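/-
IHARA track, package (VANISH) (helper5), file 2: **from the classes at the joint eigen-points to the
Hecke ring** (abstract setting, to keep the unifier away from the concrete types; instantiate
`Mχ := IhmChiPart … χ''`, `dia := ihmChiDia …`, `Tb ℓ := ihmChiOp … ℓ * ihmChiDia … ↑(z ℓ)`,
`A := IhdImg O a'' θ''`, `ρM := ihiAct O a'' θ'' hpart''`, `τ ℓ := ihdImgPi … T_ℓ`,
`D := (ZMod N)ˣ ⧸ H`, `mkD := QuotientGroup.mk' H`).

* `ihv_trace_sub_mem` : a strict lift of a residual representation which is the scalar `cs` at `g` has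
  `tr rA(g) ≡ 2 cs mod 𝔪_A`;
* `ihv_point` : at a point `P` of `A` carrying a `θ`-local eigenclass whose diamond character is
  trivial on `H'`: `P.ψ (tr rA(g)) = cs (1 + q₀)` (`ihv_class_trace` + lead's `ihe_sign`);
* `ihv_vanish_abs` : hence `tr rA(g) = cs (1 + q₀)` in `A` (reduced, acting faithfully on `Mχ`:
  helper4's `ihn_joint_points_injective`), POINT→CLASS as a hypothesis.
-/
import Mathlib
import Fermat.Agent.Lib.Ihara.Van.Class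
import Fermat.Agent.Lib.Ihara.Nf.Inj
import Fermat.Agent.Lib.Ihara.E.Sign

set_option autoImplicit false
set_option linter.unusedSectionVars false
set_option linter.unusedVariables false
set_option linter.style.haveILetI false

open scoped TensorProduct
open Matrix MatrixGroups CongruenceSubgroup ModularCurve ModularCurve.Period Module IsLocalRing
open Fermat.Agent.DS Fermat.Agent.T1 Fermat.Agent.T1G Fermat.Agent.T2 Fermat.Agent.S53Lib
  Fermat.Agent.TW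

namespace Fermat.Agent.Ihara

open Fermat.Agent.Alpha (AlpqPoint)

local notation "Qbar" => AlgebraicClosure ℚ
local notation "GQ" => (AlgebraicClosure ℚ ≃ₐ[ℚ] AlgebraicClosure ℚ)

section Resid

variable {𝒪 : Type} [CommRing 𝒪] [IsLocalRing 𝒪]
  {A : Type} [CommRing A] [IsLocalRing A] [Algebra 𝒪 A] [IsLocalHom (algebraMap 𝒪 A)]

/-- a strict lift of a residual representation which is the scalar `cs` at `g` has trace `≡ 2 cs` at
`g` -/
theorem ihv_trace_sub_mem (ρbar : ResidualGaloisRep (ResidueField 𝒪))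
    (b : Module.Basis (Fin 2) (ResidueField 𝒪) ρbar.V)
    (r : GQ →* Matrix (Fin 2) (Fin 2) A) (hr : IsStrictLift (𝒪 := 𝒪) (resMat ρbar b) r)
    (g : GQ) (cs : 𝒪) (hg : ρbar.ρ g = residue 𝒪 cs • 1) :
    (r g).trace - algebraMap 𝒪 A (2 * cs) ∈ maximalIdeal A := by
  have h1 := hr g
  rw [resMat_apply, hg, map_smul, LinearMap.toMatrix_one] at h1
  have h00 := congrFun (congrFun h1 0) 0
  have h11 := congrFun (congrFun h1 1) 1
  simp only [Matrix.map_apply, Matrix.smul_apply, Matrix.one_apply_eq, smul_eq_mul, mul_one]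
    at h00 h11
  have h2 : residue A (algebraMap 𝒪 A cs) = ResidueField.map (algebraMap 𝒪 A) (residue 𝒪 cs) :=
    rfl
  rw [← residue_eq_zero_iff, map_sub, Matrix.trace_fin_two, map_add, h00, h11, map_mul, map_mul,
    map_ofNat, map_ofNat, h2]
  ring

/-- `2` is a unit of a local ring of odd residue characteristic -/
theorem ihv_two_not_mem {R : Type*} [CommRing R] [IsLocalRing R] {p : ℕ} (hp : p.Prime)
    (hp2 : p ≠ 2) (hpR : (p : R) ∈ maximalIdeal R) : (2 : R) ∉ maximalIdeal R := by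
  intro h2m
  obtain ⟨m, hm⟩ : Odd p := hp.eq_two_or_odd'.resolve_left hp2
  have h1 : (1 : R) ∈ maximalIdeal R := by
    have e : (1 : R) = (p : R) - 2 * (m : R) := by
      rw [hm]
      push_cast
      ring
    rw [e]
    exact Ideal.sub_mem _ hpR (Ideal.mul_mem_right _ _ h2m)
  exact (Ideal.ne_top_iff_one _).mp (maximalIdeal.isMaximal R).ne_top h1

/-- `v - 1 ∈ 𝔪` for `v ≡ 1 mod p`, `p ∈ 𝔪` -/
theorem ihv_sub_one_mem {R : Type*} [CommRing R] [IsLocalRing R] {p v : ℕ}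
    (hpR : (p : R) ∈ maximalIdeal R) (hv : 0 < v) (h1 : p ∣ v - 1) :
    ((v : R) - 1) ∈ maximalIdeal R := by
  obtain ⟨m, hm⟩ := h1
  have h2 : v = 1 + p * m := by omega
  rw [h2]
  push_cast
  rw [add_sub_cancel_left]
  exact Ideal.mul_mem_right _ _ hpR

end Resid

section Point

variable {O : Type} [CommRing O] [IsDomain O] [IsDiscreteValuationRing O]
  [IsAdicComplete (maximalIdeal O) O] [Finite (ResidueField O)] [CharZero O]
  {A : Type} [CommRing A] [IsLocalRing A] [Algebra O A] [IsLocalHom (algebraMap O A)]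

/-- **(VANISH) at a point**: at a point `P` of the Hecke ring carrying a `θ`-local eigenclass whose
diamond character is trivial on `H' ∋ ι_{q₀}(u)`, the trace of Frobenius at `q₀` is `cs (1 + q₀)` -/
theorem ihv_point (p : ℕ) [Fact p.Prime] (hp2 : p ≠ 2) (hpO : (p : O) ∈ maximalIdeal O)
    (ρbar : ResidualGaloisRep (ResidueField O))
    (b : Module.Basis (Fin 2) (ResidueField O) ρbar.V)
    (rA : GQ →* Matrix (Fin 2) (Fin 2) A) (hcts : MatCts A rA)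
    (hr : IsStrictLift (𝒪 := O) (resMat ρbar b) rA)
    (S : Finset ℕ) (τ : ℕ → A)
    (hfrobA : ∀ ℓ : ℕ, ℓ.Prime → ℓ ∉ S → ∀ Pl : ValuationSubring Qbar, Pl.LiesOverPrime ℓ →
      ∀ φ : GQ, Pl.IsFrobeniusAt φ ℓ → (rA φ).trace = τ ℓ ∧ (rA φ).det = (ℓ : A))
    (P : AlpqPoint O A)
    {N : ℕ} [NeZero N] (hN6 : 6 ≤ N) {H H' : Subgroup (ZMod N)ˣ} (hle : H ≤ H')
    {Rl : List ℕ} {k : ℕ → ℕ} (hyp : IhtcHyp N H Rl k) {q₀ : ℕ} (hq₀ : q₀ ∈ Rl) (hq₀p : q₀ ≠ p)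
    (hq₀1 : p ∣ q₀ - 1) (hqH' : ∀ u : (ZMod q₀)ˣ, ihtcIota N q₀ u ∈ H')
    {N' : ℕ} [NeZero N'] (hN' : N' = N * Rl.prod)
    (hpS : p ∈ S) (hNS : ∀ q : ℕ, q.Prime → q ∣ N' → q ∈ S)
    {Nm : ℕ} [NeZero Nm] {Hm : Subgroup (ZMod Nm)ˣ} (hP : IhtkPair N H' Nm Hm q₀)
    {Ps Ps' : Set ℕ} (hPs' : Ps' ⊆ Ps) (hq₀Ps' : q₀ ∉ Ps') (θ : ℕ → P.R)
    (hbot : ihmPart P.R Nm Hm Ps' θ = ⊥)
    (Ψ : (ZMod N)ˣ →* P.R) (hΨ : ∀ d ∈ H', Ψ d = 1)
    (c : ↥(parabolicHoms P.R (ihfGammaH N H) P.R)) (hc0 : c ≠ 0)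
    (hcD : ∀ x : (ZMod N)ˣ, (ihfSysD N H x).homPar P.R P.R c = Ψ x • c)
    (hcT : ∀ ℓ : ℕ, ℓ.Prime → ¬ ℓ ∣ N' → ℓ ∉ S →
      ihtrOp H P.R P.R (ihtcZ N Rl k) ℓ c = P.ψ (τ ℓ) • c)
    (hcP : c ∈ ihmPart P.R N H Ps θ)
    (g : GQ) (Pl : ValuationSubring Qbar) (hPl : Pl.LiesOverPrime q₀)
    (hg : Pl.IsFrobeniusAt g q₀) (hdetg : (rA g).det = (q₀ : A))
    (cs : O) (hcs : cs ^ 2 = 1) (hρg : ρbar.ρ g = residue O cs • 1) :
    P.ψ (rA g).trace = algebraMap O P.R (cs * (1 + (q₀ : O))) := by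
  haveI := P.isLocalHom_ψ
  have hp : p.Prime := Fact.out
  have hpR : (p : P.R) ∈ maximalIdeal P.R := P.natCast_mem hpO
  obtain ⟨I, hI, ⟨τt⟩⟩ := ihsc_exists_trans H H'
  have htr : ∀ σ, (mapMat (P.ψ : A →+* P.R) rA σ).trace = P.ψ (rA σ).trace := by
    intro σ
    rw [mapMat_apply, Matrix.trace_fin_two, Matrix.map_apply, Matrix.map_apply,
      Matrix.trace_fin_two, map_add]
    rfl
  have hdet : ∀ σ, (mapMat (P.ψ : A →+* P.R) rA σ).det = P.ψ (rA σ).det := by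
    intro σ
    rw [mapMat_apply]
    exact (RingHom.map_det (P.ψ : A →+* P.R) (rA σ)).symm
  have h1 := ihv_class_trace p hpR hN6 hle τt hyp hq₀ hq₀p hqH' hN' S hpS hNS hP hPs' hq₀Ps' θ
    hbot Ψ hΨ (fun ℓ => P.ψ (τ ℓ)) c hc0 hcD hcT hcP (mapMat (P.ψ : A →+* P.R) rA)
    (hcts.map _ P.isLocalHom_ψ)
    (fun ℓ hℓ hℓS Pl' hPl' φ hφ => by
      obtain ⟨h2, h3⟩ := hfrobA ℓ hℓ hℓS Pl' hPl' φ hφ
      exact ⟨by rw [htr, h2], by rw [hdet, h3, map_natCast]⟩)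
    Pl hPl g hg (by rw [hdet, hdetg, map_natCast])
  rw [htr] at h1
  have hq₀pos : 0 < q₀ := (hyp.prime q₀ hq₀).pos
  have h3 := ihv_trace_sub_mem ρbar b rA hr g cs hρg
  have h4 : P.ψ ((rA g).trace - algebraMap O A (2 * cs)) ∈ maximalIdeal P.R :=
    map_nonunit (P.ψ : A →+* P.R) _ h3
  have h5 : P.ψ ((rA g).trace - algebraMap O A (2 * cs))
      = P.ψ (rA g).trace - 2 * algebraMap O P.R cs := by
    rw [map_sub, P.ψ.commutes, map_mul, map_ofNat]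
  rw [h5] at h4
  have h2 := ihe_sign (ihv_two_not_mem hp hp2 hpR) h1 (ihv_sub_one_mem hpR hq₀pos hq₀1)
    (c := algebraMap O P.R cs) (by rw [← map_pow, hcs, map_one]) h4
  rw [h2, map_mul, map_add, map_one, map_natCast]

end Point

section Abs

variable {O : Type} [CommRing O] [IsDomain O] [IsDiscreteValuationRing O]
  [IsAdicComplete (maximalIdeal O) O] [Finite (ResidueField O)] [CharZero O]
  {Mχ : Type} [AddCommGroup Mχ] [Module O Mχ] [Module.Finite O Mχ] [Module.IsTorsionFree O Mχ]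
  {A : Type} [CommRing A] [IsLocalRing A] [Algebra O A] [IsLocalHom (algebraMap O A)]
  [Module.Finite O A] [IsReduced A]
  {D : Type*} [CommGroup D]

/-- **(VANISH), abstract form**: POINT→CLASS as a hypothesis -/
theorem ihv_vanish_abs (p : ℕ) [Fact p.Prime] (hp2 : p ≠ 2) (hpO : (p : O) ∈ maximalIdeal O)
    (hres : Function.Surjective (residue A ∘ algebraMap O A))
    (ρM : A →ₐ[O] Module.End O Mχ) (hinj : Function.Injective ρM)
    (dia : D →* Module.End O Mχ) (hcomm : ∀ t δ, Commute (ρM t) (dia δ))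
    (hD : ∀ δ : D, ∃ c : ℕ, δ ^ (p ^ c) = 1)
    (Δ₁ : Subgroup D) (χ' : Δ₁ →* O) (hχ' : ∀ (δ : Δ₁) (x : Mχ), dia δ x = χ' δ • x)
    (ρbar : ResidualGaloisRep (ResidueField O))
    (b : Module.Basis (Fin 2) (ResidueField O) ρbar.V)
    (rA : GQ →* Matrix (Fin 2) (Fin 2) A) (hcts : MatCts A rA)
    (hr : IsStrictLift (𝒪 := O) (resMat ρbar b) rA)
    (S : Finset ℕ) (τ : ℕ → A)
    (hfrobA : ∀ ℓ : ℕ, ℓ.Prime → ℓ ∉ S → ∀ Pl : ValuationSubring Qbar, Pl.LiesOverPrime ℓ →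
      ∀ φ : GQ, Pl.IsFrobeniusAt φ ℓ → (rA φ).trace = τ ℓ ∧ (rA φ).det = (ℓ : A))
    (Tb : ℕ → Module.End O Mχ) (hτ : ∀ ℓ : ℕ, ℓ.Prime → ℓ ∉ S → ρM (τ ℓ) = Tb ℓ)
    {N : ℕ} [NeZero N] (hN6 : 6 ≤ N) {H H' : Subgroup (ZMod N)ˣ} (hle : H ≤ H')
    (mkD : (ZMod N)ˣ →* D)
    {Rl : List ℕ} {k : ℕ → ℕ} (hyp : IhtcHyp N H Rl k) {q₀ : ℕ} (hq₀ : q₀ ∈ Rl) (hq₀p : q₀ ≠ p)
    (hq₀1 : p ∣ q₀ - 1) (hqH' : ∀ u : (ZMod q₀)ˣ, ihtcIota N q₀ u ∈ H')
    (hχH' : ∀ d ∈ H', ∃ hd : mkD d ∈ Δ₁, χ' ⟨mkD d, hd⟩ = 1)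
    {N' : ℕ} [NeZero N'] (hN' : N' = N * Rl.prod)
    (hpS : p ∈ S) (hNS : ∀ q : ℕ, q.Prime → q ∣ N' → q ∈ S)
    {Nm : ℕ} [NeZero Nm] {Hm : Subgroup (ZMod Nm)ˣ} (hP : IhtkPair N H' Nm Hm q₀)
    {Ps Ps' : Set ℕ} (hPs' : Ps' ⊆ Ps) (hq₀Ps' : q₀ ∉ Ps') (θ₀ : ℕ → O)
    (hbot : ∀ (R : Type) [CommRing R] [IsDomain R] [IsDiscreteValuationRing R] [CharZero R]
      [IsAdicComplete (maximalIdeal R) R] [Finite (ResidueField R)] [Algebra O R]
      [IsLocalHom (algebraMap O R)],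
      ihmPart R Nm Hm Ps' (fun ℓ => algebraMap O R (θ₀ ℓ)) = ⊥)
    (hPC : ∀ (P : AlpqPoint O A) (y : P.R ⊗[O] Mχ), y ≠ 0 → ∀ (lam : ℕ → P.R) (Ψ : D →* P.R),
      (∀ ℓ : ℕ, ℓ.Prime → ℓ ∉ S → (Tb ℓ).baseChange P.R y = lam ℓ • y) →
      (∀ δ, (dia δ).baseChange P.R y = Ψ δ • y) →
      ∃ c : ↥(parabolicHoms P.R (ihfGammaH N H) P.R), c ≠ 0 ∧
        (∀ d : (ZMod N)ˣ, (ihfSysD N H d).homPar P.R P.R c = Ψ (mkD d) • c) ∧
        (∀ ℓ : ℕ, ℓ.Prime → ¬ ℓ ∣ N' → ℓ ∉ S →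
          ihtrOp H P.R P.R (ihtcZ N Rl k) ℓ c = lam ℓ • c) ∧
        c ∈ ihmPart P.R N H Ps (fun ℓ => algebraMap O P.R (θ₀ ℓ)))
    (g : GQ) (Pl : ValuationSubring Qbar) (hPl : Pl.LiesOverPrime q₀)
    (hg : Pl.IsFrobeniusAt g q₀) (hdetg : (rA g).det = (q₀ : A))
    (cs : O) (hcs : cs ^ 2 = 1) (hρg : ρbar.ρ g = residue O cs • 1) :
    (rA g).trace = algebraMap O A (cs * (1 + (q₀ : O))) := by
  have hp : p.Prime := Fact.out
  by_contra hne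
  obtain ⟨P, χ, y, hy0, hyA, hyG, hPt⟩ := ihn_joint_points_injective hp hpO hres ρM hinj hD dia
    hcomm _ (sub_ne_zero.mpr hne)
  apply hPt
  rw [map_sub, P.ψ.commutes, sub_eq_zero]
  -- POINT→CLASS
  obtain ⟨c, hc0, hcD, hcT, hcP⟩ := hPC P y hy0 (fun ℓ => P.ψ (τ ℓ)) χ
    (fun ℓ hℓ hℓS => by rw [← hτ ℓ hℓ hℓS, hyA]) hyG
  -- the diamond character is trivial on `H'`
  haveI : Module.Free O Mχ := Module.free_of_finite_type_torsion_free'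
  haveI : Module.IsTorsionFree P.R (P.R ⊗[O] Mχ) := inferInstance
  have hΨ : ∀ d ∈ H', (χ.comp mkD) d = 1 := by
    intro d hd
    obtain ⟨hd1, hd2⟩ := hχH' d hd
    have h2 : dia (mkD d) = 1 := by
      ext x
      rw [hχ' ⟨mkD d, hd1⟩ x, hd2, one_smul]
      rfl
    have h1 : (dia (mkD d)).baseChange P.R y = y := by
      rw [h2, Module.End.one_eq_id, LinearMap.baseChange_id, LinearMap.id_apply]
    rw [hyG] at h1
    have h0 : (χ (mkD d) - 1) • y = χ (mkD d) • y - y := by module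
    have h3 : (χ (mkD d) - 1) • y = 0 := by rw [h0, h1, sub_self]
    exact sub_eq_zero.mp ((smul_eq_zero.mp h3).resolve_right hy0)
  exact ihv_point p hp2 hpO ρbar b rA hcts hr S τ hfrobA P hN6 hle hyp hq₀ hq₀p hq₀1 hqH' hN' hpS
    hNS hP hPs' hq₀Ps' _ (hbot P.R) (χ.comp mkD) hΨ c hc0 hcD hcT hcP g Pl hPl hg hdetg cs hcs hρg

end Abs

end Fermat.Agent.Ihara
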