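/-
IHARA track, package (VANISH) (helper5): **the trace of Frobenius at `q₀` in the Hecke ring of the
companion module `M^{χ''}`**.

`χ''` a character of `Δ₁` which is trivial on (the image of) a level structure `H' ⊇ H` containing the
whole `q₀`-component of `(ℤ/M)ˣ`; `H'` the full preimage of `Hm ≤ (ℤ/Nm)ˣ`, `M = Nm q₀`; no
`θ₀`-local class at the lower level `Γ_{Hm}(Nm)` (`hbot`, over every complete discrete valuation ring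
`R ⊇ O`: helper3's `ihod_bot_of_not_modular`); `g` a Frobenius lift at a place over `q₀ ≡ 1 mod p` with
`ρbar(g) = cs` scalar, `cs² = 1`.  Then, for every datum `(a'', θ'', rA'')` of helper7's
`ihk_main_chi` on `M^{χ''}` (lead's `IheDatum`),

  `tr rA''(g) = cs (1 + q₀)`   in the Hecke ring `IhdImg O a'' θ''`

— verbatim the hypothesis `hvan` of lead's `ihe_field` (E/Main.lean) with `c := cs * (1 + q₀)`.
-/
import Mathlib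
import Fermat.Agent.Lib.Ihara.E.Main
import Fermat.Agent.Lib.Ihara.Van.Point
import Fermat.Agent.Lib.Ihara.Pc.Main

set_option autoImplicit false
set_option linter.unusedSectionVars false
set_option linter.unusedVariables false
set_option linter.style.haveILetI false

open IsLocalRing Matrix Polynomial Fermat.Agent.S53Lib Fermat.Agent.TW
open Matrix MatrixGroups CongruenceSubgroup ModularCurve ModularCurve.Period Module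
open Fermat.Agent.DS Fermat.Agent.T1 Fermat.Agent.T1G Fermat.Agent.T2
open scoped TensorProduct

namespace Fermat.Agent.Ihara

open Fermat.Agent.Alpha (AlpqPoint)

local notation "Qbar" => AlgebraicClosure ℚ
local notation "GQ" => (AlgebraicClosure ℚ ≃ₐ[ℚ] AlgebraicClosure ℚ)

section PC

variable (O : Type) [CommRing O] [IsDomain O] [IsDiscreteValuationRing O] [CharZero O]
  [IsAdicComplete (IsLocalRing.maximalIdeal O) O]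
  (M : ℕ) [NeZero M] (hM : 6 ≤ M)
  (H : Subgroup (ZMod M)ˣ) (Ps : Set ℕ) (θ₀ : ℕ → O)
  (Δ₁ : Subgroup ((ZMod M)ˣ ⧸ H)) (χ'' : Δ₁ →* O)

/-- POINT→CLASS (helper6's `ihpc_core`) in the form of the hypothesis `hPC` of `ihv_vanish_abs` -/
theorem ihv_PC [Module.IsTorsionFree O (IhmChiPart O M hM H Ps θ₀ Δ₁ χ'')]
    {Rl : List ℕ} {k : ℕ → ℕ} {N' : ℕ} (hN' : N' = M * Rl.prod) {S : Finset ℕ}
    {A : Type} [CommRing A] [Algebra O A] (P : AlpqPoint O A)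
    (y : P.R ⊗[O] IhmChiPart O M hM H Ps θ₀ Δ₁ χ'') (hy0 : y ≠ 0) (lam : ℕ → P.R)
    (Ψ : (ZMod M)ˣ ⧸ H →* P.R)
    (hyT : ∀ ℓ : ℕ, ℓ.Prime → ℓ ∉ S → ((ihmChiOp O M hM H Ps θ₀ Δ₁ χ'' ℓ *
      ihmChiDia O M hM H Ps θ₀ Δ₁ χ'' ((ihtcZ M Rl k ℓ : (ZMod M)ˣ) : (ZMod M)ˣ ⧸ H)).baseChange
        P.R) y = lam ℓ • y)
    (hyD : ∀ δ, ((ihmChiDia O M hM H Ps θ₀ Δ₁ χ'' δ).baseChange P.R) y = Ψ δ • y) :
    ∃ c : ↥(parabolicHoms P.R (ihfGammaH M H) P.R), c ≠ 0 ∧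
      (∀ d : (ZMod M)ˣ, (ihfSysD M H d).homPar P.R P.R c = Ψ (QuotientGroup.mk' H d) • c) ∧
      (∀ ℓ : ℕ, ℓ.Prime → ¬ ℓ ∣ N' → ℓ ∉ S →
        ihtrOp H P.R P.R (ihtcZ M Rl k) ℓ c = lam ℓ • c) ∧
      c ∈ ihmPart P.R M H Ps (fun ℓ => algebraMap O P.R (θ₀ ℓ)) := by
  haveI : Module.IsTorsionFree O P.R :=
    Module.isTorsionFree_iff_algebraMap_injective.mpr P.inj
  haveI : Module.Free O P.R := Module.free_of_finite_type_torsion_free'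
  obtain ⟨c, hc0, hcD, hcT, hcN⟩ := ihpc_core O M hM H Ps θ₀ Δ₁ χ'' P.R (ihtcZ M Rl k)
    {ℓ | ℓ.Prime ∧ ℓ ∉ S} y hy0 lam (fun ℓ hℓ => hyT ℓ hℓ.1 hℓ.2) Ψ hyD
  refine ⟨c, hc0, hcD, fun ℓ hℓ hℓN' hℓS => ?_, ?_⟩
  · exact hcT ℓ ⟨hℓ, hℓS⟩ hℓ (fun h => hℓN' (h.trans ⟨_, hN'⟩))
  · exact (ihod_mem_part_iff P.R Ps _ c).mpr hcN

end PC

section Vanish

variable (O : Type) [CommRing O] [IsDomain O] [IsDiscreteValuationRing O] [CharZero O]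
  [IsAdicComplete (IsLocalRing.maximalIdeal O) O] [Finite (ResidueField O)]
  (M : ℕ) [NeZero M] (hM : 6 ≤ M)
  (H : Subgroup (ZMod M)ˣ) (Ps : Set ℕ) (θ₀ : ℕ → O)
  {p : ℕ} [Fact p.Prime] (hL : IhfLevel p M H) (hpO : (p : O) ∈ IsLocalRing.maximalIdeal O)
  (Δ₁ : Subgroup ((ZMod M)ˣ ⧸ H)) (χ'' : Δ₁ →* O)

include hL hpO in
/-- **(VANISH)** -/
theorem ihv_vanish
    [Module.Finite O (IhmChiPart O M hM H Ps θ₀ Δ₁ χ'')]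
    [Module.IsTorsionFree O (IhmChiPart O M hM H Ps θ₀ Δ₁ χ'')]
    -- the chain of the composite twist
    {Rl : List ℕ} {k : ℕ → ℕ} (hyp : IhtcHyp M H Rl k) {q₀ : ℕ} (hq₀ : q₀ ∈ Rl) (hq₀p : q₀ ≠ p)
    (hq₀1 : p ∣ q₀ - 1)
    {N' : ℕ} [NeZero N'] (hN' : N' = M * Rl.prod)
    {S : Finset ℕ} (hpS : p ∈ S) (hS : ∀ l : ℕ, l.Prime → l ∣ N' → l ∈ S)
    (hPs : ∀ l : ℕ, l.Prime → l ∉ S → l ∈ Ps)
    -- the bigger level structure `H' ⊇ H`, containing the whole `q₀`-component, killed by `χ''`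
    (H' : Subgroup (ZMod M)ˣ) (hle : H ≤ H') (hqH' : ∀ u : (ZMod q₀)ˣ, ihtcIota M q₀ u ∈ H')
    (hχH' : ∀ d ∈ H', ∃ hd : ((d : (ZMod M)ˣ) : (ZMod M)ˣ ⧸ H) ∈ Δ₁, χ'' ⟨_, hd⟩ = 1)
    -- the lower level `Γ_{Hm}(Nm)`, `M = Nm q₀`
    {Nm : ℕ} [NeZero Nm] {Hm : Subgroup (ZMod Nm)ˣ} (hP : IhtkPair M H' Nm Hm q₀)
    -- no `θ₀`-local class at the lower level
    (Ps' : Set ℕ) (hPs' : Ps' ⊆ Ps) (hq₀Ps' : q₀ ∉ Ps')
    (hbot : ∀ (R : Type) [CommRing R] [IsDomain R] [IsDiscreteValuationRing R] [CharZero R]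
      [IsAdicComplete (IsLocalRing.maximalIdeal R) R] [Finite (ResidueField R)] [Algebra O R]
      [IsLocalHom (algebraMap O R)],
      ihmPart R Nm Hm Ps' (fun ℓ => algebraMap O R (θ₀ ℓ)) = ⊥)
    -- the residual representation, the Frobenius lift at `q₀` and the sign
    (ρbar : ResidualGaloisRep (ResidueField O))
    (b : Module.Basis (Fin 2) (ResidueField O) ρbar.V) (Smin : Finset ℕ)
    (g : GQ) (Pl : ValuationSubring Qbar) (hPl : Pl.LiesOverPrime q₀)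
    (hg : Pl.IsFrobeniusAt g q₀)
    (cs : O) (hcs : cs ^ 2 = 1) (hρg : ρbar.ρ g = residue O cs • 1)
    -- the datum on `M^{χ''}`
    (a'' : CuspForm.heckeAlgebra N' 2 (↑S : Set ℕ) →+*
      Module.End O (IhmChiPart O M hM H Ps θ₀ Δ₁ χ''))
    (θ'' : CuspForm.heckeAlgebra N' 2 (↑S : Set ℕ) →+* ResidueField O)
    (hpart'' : ihdPart O a'' θ'' = ⊤) [Nontrivial ↥(ihdPart O a'' θ'')]
    (rA'' : GQ →* Matrix (Fin 2) (Fin 2) (IhdImg O a'' θ''))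
    (hcts'' : MatCts (IhdImg O a'' θ'') rA'')
    (hD'' : IheDatum O M hM H Ps θ₀ p Δ₁ χ'' S (ihtcZ M Rl k) ρbar b Smin a'' θ'' hpart'' rA''
      hcts'') :
    (rA'' g).trace = algebraMap O (IhdImg O a'' θ'') (cs * (1 + (q₀ : O))) := by
  classical
  obtain ⟨haT, -, hdc, -, hres, hstrict, -, -, hFr, hdet⟩ := hD''
  have hp : p.Prime := Fact.out
  have hp2 : p ≠ 2 := by have := hL.five_le; omega
  haveI : IsReduced (IhdImg O a'' θ'') := ihdImg_isReduced θ'' a'' hS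
  have hq₀P : q₀.Prime := hyp.prime q₀ hq₀
  -- the Hecke elements
  set τ : ℕ → IhdImg O a'' θ'' := fun ℓ =>
    if h : ℓ.Prime ∧ ¬ ℓ ∣ N' ∧ ℓ ∉ (↑S : Set ℕ) then
      ihdImgPi O a'' θ'' (CuspForm.heckeAlgebra.T h.1 h.2.1 h.2.2) else 0 with hτdef
  have hτ' : ∀ (ℓ : ℕ) (hℓ : ℓ.Prime) (hℓN : ¬ ℓ ∣ N') (hℓS : ℓ ∉ (↑S : Set ℕ)),
      τ ℓ = ihdImgPi O a'' θ'' (CuspForm.heckeAlgebra.T hℓ hℓN hℓS) := by
    intro ℓ hℓ hℓN hℓS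
    rw [hτdef]
    exact dif_pos ⟨hℓ, hℓN, hℓS⟩
  have hNS : ∀ ℓ : ℕ, ℓ.Prime → ℓ ∉ S → ¬ ℓ ∣ N' := fun ℓ hℓ hℓS h => hℓS (hS ℓ hℓ h)
  have hSc : ∀ ℓ : ℕ, ℓ ∉ S → ℓ ∉ (↑S : Set ℕ) := fun ℓ h => by simpa using h
  -- the diamond group is a `p`-group
  have hD : ∀ δ : (ZMod M)ˣ ⧸ H, ∃ c : ℕ, δ ^ (p ^ c) = 1 := by
    intro δ
    obtain ⟨d, rfl⟩ := QuotientGroup.mk_surjective δ
    obtain ⟨n, hn⟩ := hL.pgroup d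
    refine ⟨n, ?_⟩
    rw [← QuotientGroup.mk_pow]
    exact (QuotientGroup.eq_one_iff _).mpr hn
  -- traces and determinants of Frobenius
  have hfrobA : ∀ ℓ : ℕ, ℓ.Prime → ℓ ∉ S → ∀ Pl' : ValuationSubring Qbar, Pl'.LiesOverPrime ℓ →
      ∀ φ : GQ, Pl'.IsFrobeniusAt φ ℓ →
        (rA'' φ).trace = τ ℓ ∧ (rA'' φ).det = (ℓ : IhdImg O a'' θ'') := by
    intro ℓ hℓ hℓS Pl' hPl' φ hφ
    have hℓp : ℓ ≠ p := fun h => hℓS (h ▸ hpS)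
    refine ⟨?_, (hdet ℓ hℓ hℓp Pl' hPl').1 φ hφ⟩
    apply ihiAct_injective O a'' θ'' hpart''
    rw [hFr ℓ hℓ (hNS ℓ hℓ hℓS) (hSc ℓ hℓS) Pl' hPl' φ hφ, hτ' ℓ hℓ (hNS ℓ hℓ hℓS) (hSc ℓ hℓS),
      ihiAct_pi]
  -- the Hecke elements act as `T_ℓ ⟨z ℓ⟩`
  set Tb : ℕ → Module.End O (IhmChiPart O M hM H Ps θ₀ Δ₁ χ'') := fun ℓ =>
    ihmChiOp O M hM H Ps θ₀ Δ₁ χ'' ℓ *
      ihmChiDia O M hM H Ps θ₀ Δ₁ χ'' ((ihtcZ M Rl k ℓ : (ZMod M)ˣ) : (ZMod M)ˣ ⧸ H) with hTb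
  have hτ : ∀ ℓ : ℕ, ℓ.Prime → ℓ ∉ S → ihiAct O a'' θ'' hpart'' (τ ℓ) = Tb ℓ := by
    intro ℓ hℓ hℓS
    rw [hτ' ℓ hℓ (hNS ℓ hℓ hℓS) (hSc ℓ hℓS), ihiAct_pi, haT]
  -- POINT→CLASS
  have hPC : ∀ (P : AlpqPoint O (IhdImg O a'' θ''))
      (y : P.R ⊗[O] IhmChiPart O M hM H Ps θ₀ Δ₁ χ''), y ≠ 0 →
      ∀ (lam : ℕ → P.R) (Ψ : (ZMod M)ˣ ⧸ H →* P.R),
      (∀ ℓ : ℕ, ℓ.Prime → ℓ ∉ S → (Tb ℓ).baseChange P.R y = lam ℓ • y) →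
      (∀ δ, ((ihmChiDia O M hM H Ps θ₀ Δ₁ χ'' δ).baseChange P.R) y = Ψ δ • y) →
      ∃ c : ↥(parabolicHoms P.R (ihfGammaH M H) P.R), c ≠ 0 ∧
        (∀ d : (ZMod M)ˣ, (ihfSysD M H d).homPar P.R P.R c = Ψ (QuotientGroup.mk' H d) • c) ∧
        (∀ ℓ : ℕ, ℓ.Prime → ¬ ℓ ∣ N' → ℓ ∉ S →
          ihtrOp H P.R P.R (ihtcZ M Rl k) ℓ c = lam ℓ • c) ∧
        c ∈ ihmPart P.R M H Ps (fun ℓ => algebraMap O P.R (θ₀ ℓ)) :=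
    fun P y hy0 lam Ψ hyT hyD => ihv_PC O M hM H Ps θ₀ Δ₁ χ'' hN' P y hy0 lam Ψ hyT hyD
  have hdetg : (rA'' g).det = (q₀ : IhdImg O a'' θ'') := (hdet q₀ hq₀P hq₀p Pl hPl).1 g hg
  have hcomm : ∀ (t : IhdImg O a'' θ'') (δ : (ZMod M)ˣ ⧸ H),
      Commute (ihiAct O a'' θ'' hpart'' t) (ihmChiDia O M hM H Ps θ₀ Δ₁ χ'' δ) :=
    fun t δ => (hdc δ t).symm
  have hχ' : ∀ (δ : Δ₁) (x : IhmChiPart O M hM H Ps θ₀ Δ₁ χ''),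
      ihmChiDia O M hM H Ps θ₀ Δ₁ χ'' δ x = χ'' δ • x :=
    fun δ x => ihmChiDia_of_mem O M hM H Ps θ₀ Δ₁ χ'' δ x
  exact ihv_vanish_abs (D := (ZMod M)ˣ ⧸ H) p hp2 hpO hres (ihiAct O a'' θ'' hpart'')
    (ihiAct_injective O a'' θ'' hpart'') (ihmChiDia O M hM H Ps θ₀ Δ₁ χ'') hcomm hD Δ₁ χ'' hχ'
    ρbar b rA'' hcts'' hstrict S τ hfrobA Tb hτ hM hle (QuotientGroup.mk' H) hyp hq₀ hq₀p hq₀1
    hqH' hχH' hN' hpS hS hP hPs' hq₀Ps' θ₀ hbot hPC g Pl hPl hg hdetg cs hcs hρg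

end Vanish

end Fermat.Agent.Ihara
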