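/-
IHARA track, package (VANISH) (helper5), file 4: **(VANISH) in the `IhkOut` shape** — verbatim the
hypothesis `hvan` of lead's `ihe_field_out` (E/Out.lean) with `g`, `c := cs * (1 + q₀)`,
`z := ihtcZ M Rl k`.
-/
import Mathlib
import Fermat.Agent.Lib.Ihara.Van.Main
import Fermat.Agent.Lib.Ihara.E.Out

set_option autoImplicit false
set_option linter.unusedSectionVars false
set_option linter.unusedVariables false
set_option linter.style.haveILetI false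

open IsLocalRing Matrix Polynomial Fermat.Agent.S53Lib Fermat.Agent.TW
open Matrix MatrixGroups CongruenceSubgroup ModularCurve ModularCurve.Period Module
open Fermat.Agent.DS Fermat.Agent.T1 Fermat.Agent.T1G Fermat.Agent.T2

namespace Fermat.Agent.Ihara

local notation "Qbar" => AlgebraicClosure ℚ
local notation "GQ" => (AlgebraicClosure ℚ ≃ₐ[ℚ] AlgebraicClosure ℚ)

section VanishOut

variable (O : Type) [CommRing O] [IsDomain O] [IsDiscreteValuationRing O] [CharZero O]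
  [IsAdicComplete (IsLocalRing.maximalIdeal O) O] [Finite (ResidueField O)]
  (M : ℕ) [NeZero M] (hM : 6 ≤ M)
  (H : Subgroup (ZMod M)ˣ) (Ps : Set ℕ) (θ₀ : ℕ → O)
  {p : ℕ} [Fact p.Prime] (hL : IhfLevel p M H) (hpO : (p : O) ∈ IsLocalRing.maximalIdeal O)
  (Δ₁ : Subgroup ((ZMod M)ˣ ⧸ H)) (χ'' : Δ₁ →* O)

include hL hpO in
/-- **(VANISH)**, `IhkOut` shape -/
theorem ihv_vanish_out
    [Module.Finite O (IhmChiPart O M hM H Ps θ₀ Δ₁ χ'')]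
    [Module.IsTorsionFree O (IhmChiPart O M hM H Ps θ₀ Δ₁ χ'')]
    {Rl : List ℕ} {k : ℕ → ℕ} (hyp : IhtcHyp M H Rl k) {q₀ : ℕ} (hq₀ : q₀ ∈ Rl) (hq₀p : q₀ ≠ p)
    (hq₀1 : p ∣ q₀ - 1)
    {N' : ℕ} [NeZero N'] (hN' : N' = M * Rl.prod)
    {S : Finset ℕ} (hpS : p ∈ S) (hS : ∀ l : ℕ, l.Prime → l ∣ N' → l ∈ S)
    (hPs : ∀ l : ℕ, l.Prime → l ∉ S → l ∈ Ps)
    (H' : Subgroup (ZMod M)ˣ) (hle : H ≤ H') (hqH' : ∀ u : (ZMod q₀)ˣ, ihtcIota M q₀ u ∈ H')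
    (hχH' : ∀ d ∈ H', ∃ hd : ((d : (ZMod M)ˣ) : (ZMod M)ˣ ⧸ H) ∈ Δ₁, χ'' ⟨_, hd⟩ = 1)
    {Nm : ℕ} [NeZero Nm] {Hm : Subgroup (ZMod Nm)ˣ} (hP : IhtkPair M H' Nm Hm q₀)
    (Ps' : Set ℕ) (hPs' : Ps' ⊆ Ps) (hq₀Ps' : q₀ ∉ Ps')
    (hbot : ∀ (R : Type) [CommRing R] [IsDomain R] [IsDiscreteValuationRing R] [CharZero R]
      [IsAdicComplete (IsLocalRing.maximalIdeal R) R] [Finite (ResidueField R)] [Algebra O R]
      [IsLocalHom (algebraMap O R)],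
      ihmPart R Nm Hm Ps' (fun ℓ => algebraMap O R (θ₀ ℓ)) = ⊥)
    (ρbar : ResidualGaloisRep (ResidueField O))
    (b : Module.Basis (Fin 2) (ResidueField O) ρbar.V) (Smin : Finset ℕ)
    (g : GQ) (Pl : ValuationSubring Qbar) (hPl : Pl.LiesOverPrime q₀)
    (hg : Pl.IsFrobeniusAt g q₀)
    (cs : O) (hcs : cs ^ 2 = 1) (hρg : ρbar.ρ g = residue O cs • 1)
    (a'' : CuspForm.heckeAlgebra N' 2 (↑S : Set ℕ) →+*
      Module.End O (IhmChiPart O M hM H Ps θ₀ Δ₁ χ''))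
    (θ'' : CuspForm.heckeAlgebra N' 2 (↑S : Set ℕ) →+* ResidueField O)
    (hpart'' : ihdPart O a'' θ'' = ⊤) [Nontrivial ↥(ihdPart O a'' θ'')]
    (rA'' : GQ →* Matrix (Fin 2) (Fin 2) (IhdImg O a'' θ''))
    (hcts'' : MatCts (IhdImg O a'' θ'') rA'')
    (out'' : IhkOut O M hM H Ps θ₀ Δ₁ χ'' (ihtcZ M Rl k) p ρbar b Smin a'' θ'' hpart'' rA''
      hcts'') :
    (rA'' g).trace = algebraMap O (IhdImg O a'' θ'') (cs * (1 + (q₀ : O))) :=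
  ihv_vanish O M hM H Ps θ₀ hL hpO Δ₁ χ'' hyp hq₀ hq₀p hq₀1 hN' hpS hS hPs H' hle hqH' hχH' hP Ps'
    hPs' hq₀Ps' hbot ρbar b Smin g Pl hPl hg cs hcs hρg a'' θ'' hpart'' rA'' hcts''
    ((iheDatum_iff_out O M hM H Ps θ₀ p Δ₁ χ'' S (ihtcZ M Rl k) ρbar b Smin a'' θ'' hpart'' rA''
      hcts'').mpr out'')

end VanishOut

end Fermat.Agent.Ihara
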