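/-
IHARA track, package (VANISH) (helper5), file 5: **the binder `hE` of helper7's `ihk_hecke`**
(field [E′] of `IhaHecke`) = lead's `ihe_field_out` + `ihv_vanish_out`, and the producer of the
hypothesis `hbot` of (VANISH) from helper3's arithmetic hypotheses stated over `O`.

* `ihv_hbot` : `ihmPart R Nm Hm Ps (algebraMap O R ∘ θ) = ⊥` for every complete DVR `R ⊇ O`, from
  `¬ W.IsResiduallyModularOfLevel p N₀` (helper3's `ihod_bot_of_not_modular_alg` /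
  `ihod_bot_of_not_modular_top_alg`), with the case split `Hm = ⊤ ∧ Q = []` (edge case `Nm = 2`) or
  `6 ≤ Nm` as a hypothesis;
* `ihv_hE` : the field [E′] on `M^χ` for ONE output `IhkOut` of `ihk_main_chi'` — verbatim the body of
  the binder `hE` of `ihk_hecke` (`g := φv q₀`, `cs := cs q₀`, `Pl := primeLocalPlace q₀`).
-/
import Mathlib
import Fermat.Agent.Lib.Ihara.Van.Out
import Fermat.Agent.Lib.Ihara.Tw.ChainHecke

set_option autoImplicit false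
set_option linter.unusedSectionVars false
set_option linter.unusedVariables false
set_option linter.style.haveILetI false

open IsLocalRing Matrix Polynomial Fermat.Agent.S53Lib Fermat.Agent.TW
open Matrix MatrixGroups CongruenceSubgroup ModularCurve ModularCurve.Period Module
open Fermat.Agent.DS Fermat.Agent.T1 Fermat.Agent.T1G Fermat.Agent.T2

namespace Fermat.Agent.Ihara

local notation "Qbar" => AlgebraicClosure ℚ
local notation "GQ" => (AlgebraicClosure ℚ ≃ₐ[ℚ] AlgebraicClosure ℚ)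

section HBot

/-- **the hypothesis `hbot` of (VANISH)** over every complete DVR `R` which is a local `O`-algebra,
from the arithmetic hypotheses of helper3's [OLD0] over `O` -/
theorem ihv_hbot (O : Type) [CommRing O] [IsLocalRing O]
    (Nm : ℕ) [NeZero Nm] (Hm : Subgroup (ZMod Nm)ˣ) (Ps : Set ℕ) (θ : ℕ → O)
    {p : ℕ} (hp : p.Prime) (hpO : (p : O) ∈ maximalIdeal O)
    (N₀ : ℕ) [NeZero N₀] (Q : List ℕ) (hMQ : Nm = Q.foldl (· * ·) N₀) (hndQ : Q.Nodup)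
    (hQ : ∀ r ∈ Q, r.Prime ∧ ¬ r ∣ N₀) (hPsQ : ∀ r ∈ Q, r ∈ Ps) (bq : ℕ → O)
    (hθQ : ∀ r ∈ Q, θ r * bq r = ((r : ℕ) : O) ∧ IsUnit (θ r) ∧ IsUnit (θ r - bq r) ∧
      IsUnit (1 - θ r ^ 2))
    (W : WeierstrassCurve ℤ)
    (hθW : ∀ ℓ ∈ Ps, W.IsGoodPrimeFor ℓ →
      ih4Shift O θ bq Q ℓ - ((W.apOfModel ℓ : ℤ) : O) ∈ maximalIdeal O)
    (hPsW : ∀ ℓ : ℕ, ℓ.Prime → W.IsGoodPrimeFor ℓ → ¬ ℓ ∣ N₀ → ℓ ≠ p → ℓ ∈ Ps)
    (hmin : ¬ W.IsResiduallyModularOfLevel p N₀)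
    (hcase : (Hm = ⊤ ∧ Q = []) ∨ (6 ≤ Nm ∧ IhfLevel p Nm Hm ∧
      ∃ ℓ₀ : ℕ, ℓ₀.Prime ∧ ¬ ℓ₀ ∣ Nm ∧ ℓ₀ ∈ Ps ∧ IsUnit (θ ℓ₀ - ((ℓ₀ : O) + 1))))
    (R : Type) [CommRing R] [IsDomain R] [IsDiscreteValuationRing R] [CharZero R]
    [IsAdicComplete (maximalIdeal R) R] [Algebra O R] [IsLocalHom (algebraMap O R)] :
    ihmPart R Nm Hm Ps (fun ℓ => algebraMap O R (θ ℓ)) = ⊥ := by
  rcases hcase with ⟨hHm, hQnil⟩ | ⟨hNm, hL, ℓ₀, hℓ₀, hℓ₀M, hℓ₀Ps, hθ⟩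
  · subst hQnil
    have hN₀ : Nm = N₀ := by simpa using hMQ
    subst hN₀
    refine ihod_bot_of_not_modular_top_alg O R Nm Hm hHm Ps θ hp hpO W (fun ℓ hℓ hg => ?_) hPsW
      hmin
    have h := hθW ℓ hℓ hg
    rwa [ih4Shift_nil] at h
  · exact ihod_bot_of_not_modular_alg O R Nm hNm Hm Ps θ hL hpO hℓ₀ hℓ₀M hℓ₀Ps hθ N₀ Q hMQ hndQ hQ
      hPsQ bq hθQ W hθW hPsW hmin

end HBot

section HE

variable (O : Type) [CommRing O] [IsDomain O] [IsDiscreteValuationRing O] [CharZero O]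
  [IsAdicComplete (IsLocalRing.maximalIdeal O) O] [Finite (ResidueField O)]
  (M : ℕ) [NeZero M] (hM : 6 ≤ M)
  (H : Subgroup (ZMod M)ˣ) (Ps : Set ℕ) (θ₀ : ℕ → O)
  {p : ℕ} [Fact p.Prime] (hL : IhfLevel p M H) (hpO : (p : O) ∈ IsLocalRing.maximalIdeal O)
  (Δ₁ : Subgroup ((ZMod M)ˣ ⧸ H)) (χ χ'' : Δ₁ →* O)
  (ϖ : O) (hϖ : (Ideal.span {ϖ}).IsMaximal) (hχ : ∀ g : Δ₁, χ g - χ'' g ∈ Ideal.span {ϖ})

include hL hpO hϖ hχ in
/-- **the binder `hE` of `ihk_hecke`** (for one output `IhkOut` on `M^χ`) -/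
theorem ihv_hE
    [Nontrivial (IhmChiPart O M hM H Ps θ₀ Δ₁ χ'')]
    [Module.Finite O (IhmChiPart O M hM H Ps θ₀ Δ₁ χ'')]
    [Module.IsTorsionFree O (IhmChiPart O M hM H Ps θ₀ Δ₁ χ'')]
    -- the chain of the composite twist
    {Rl : List ℕ} {k : ℕ → ℕ} (hyp : IhtcHyp M H Rl k) {q₀ : ℕ} (hq₀ : q₀ ∈ Rl) (hq₀p : q₀ ≠ p)
    (hq₀1 : p ∣ q₀ - 1)
    {N' : ℕ} [NeZero N'] (hN' : N' = M * Rl.prod)
    {S : Finset ℕ} (hpS : p ∈ S) (hS : ∀ l : ℕ, l.Prime → l ∣ N' → l ∈ S)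
    (hPs : ∀ l : ℕ, l.Prime → l ∉ S → l ∈ Ps) (hpN' : ¬ p ∣ N')
    -- the bigger level structure `H' ⊇ H`, containing the whole `q₀`-component, killed by `χ''`
    (H' : Subgroup (ZMod M)ˣ) (hle : H ≤ H') (hqH' : ∀ u : (ZMod q₀)ˣ, ihtcIota M q₀ u ∈ H')
    (hχH' : ∀ d ∈ H', ∃ hd : ((d : (ZMod M)ˣ) : (ZMod M)ˣ ⧸ H) ∈ Δ₁, χ'' ⟨_, hd⟩ = 1)
    -- the lower level `Γ_{Hm}(Nm)`, `M = Nm q₀`
    {Nm : ℕ} [NeZero Nm] {Hm : Subgroup (ZMod Nm)ˣ} (hP : IhtkPair M H' Nm Hm q₀)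
    -- no `θ₀`-local class at the lower level
    (Ps' : Set ℕ) (hPs' : Ps' ⊆ Ps) (hq₀Ps' : q₀ ∉ Ps')
    (hbot : ∀ (R : Type) [CommRing R] [IsDomain R] [IsDiscreteValuationRing R] [CharZero R]
      [IsAdicComplete (IsLocalRing.maximalIdeal R) R] [Finite (ResidueField R)] [Algebra O R]
      [IsLocalHom (algebraMap O R)],
      ihmPart R Nm Hm Ps' (fun ℓ => algebraMap O R (θ₀ ℓ)) = ⊥)
    -- the residual representation
    (ρbar : ResidualGaloisRep (ResidueField O)) (habs : ρbar.IsAbsolutelyIrreducible)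
    (hfrob : ∀ (ℓ : ℕ), ℓ.Prime → ℓ ∉ S →
      ∀ P : ValuationSubring Qbar, P.LiesOverPrime ℓ → ∀ σ : GQ, P.IsFrobeniusAt σ ℓ →
        LinearMap.charpoly (ρbar.ρ σ) =
          X ^ 2 - C (residue O (θ₀ ℓ)) * X + C ((ℓ : ResidueField O)))
    (b : Module.Basis (Fin 2) (ResidueField O) ρbar.V)
    (Smin : Finset ℕ) (hSmin : ∀ q ∈ Smin, q.Prime → q ≠ p → q ∣ N' ∧ ¬ q ^ 2 ∣ N')
    -- the Frobenius lift at `q₀` and the sign
    (g : GQ) (Pl : ValuationSubring Qbar) (hPl : Pl.LiesOverPrime q₀)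
    (hg : Pl.IsFrobeniusAt g q₀)
    (cs : O) (hcs : cs ^ 2 = 1) (hρg : ρbar.ρ g = residue O cs • 1)
    -- the datum on `M^χ`
    [Module.Finite O (IhmChiPart O M hM H Ps θ₀ Δ₁ χ)]
    [Module.IsTorsionFree O (IhmChiPart O M hM H Ps θ₀ Δ₁ χ)]
    (a : CuspForm.heckeAlgebra N' 2 (↑S : Set ℕ) →+*
      Module.End O (IhmChiPart O M hM H Ps θ₀ Δ₁ χ))
    (θ' : CuspForm.heckeAlgebra N' 2 (↑S : Set ℕ) →+* ResidueField O)
    (hpart : ihdPart O a θ' = ⊤) [Nontrivial ↥(ihdPart O a θ')]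
    (rA : GQ →* Matrix (Fin 2) (Fin 2) (IhdImg O a θ')) (hcts : MatCts (IhdImg O a θ') rA)
    (out : IhkOut O M hM H Ps θ₀ Δ₁ χ (ihtcZ M Rl k) p ρbar b Smin a θ' hpart rA hcts)
    (v : IhmChiPart O M hM H Ps θ₀ Δ₁ χ) :
    ∃ v' : IhmChiPart O M hM H Ps θ₀ Δ₁ χ,
      ihiAct O a θ' hpart ((rA g).trace -
        algebraMap O (IhdImg O a θ') (cs * (1 + (q₀ : O)))) v = ϖ • v' := by
  have hne : Rl ≠ [] := List.ne_nil_of_mem hq₀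
  have hMN' : M ∣ N' := hN' ▸ Dvd.intro _ rfl
  obtain ⟨a₀, ha₀⟩ := ihtc_exists_hom hyp hne hN' O (↑S : Set ℕ)
    (fun l hl hlN' => by exact_mod_cast hS l hl hlN')
  exact ihe_field_out O M hM H Ps θ₀ hL hpO Δ₁ χ χ'' ϖ hϖ hχ hMN' hS hPs hpS hpN' (ihtcZ M Rl k)
    a₀ ha₀ ρbar habs hfrob b Smin hSmin g (cs * (1 + (q₀ : O)))
    (fun a'' θ'' hpart'' _ rA'' hcts'' out'' =>
      ihv_vanish_out O M hM H Ps θ₀ hL hpO Δ₁ χ'' hyp hq₀ hq₀p hq₀1 hN' hpS hS hPs H' hle hqH'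
        hχH' hP Ps' hPs' hq₀Ps' hbot ρbar b Smin g Pl hPl hg cs hcs hρg a'' θ'' hpart'' rA''
        hcts'' out'')
    a θ' hpart rA hcts out v

end HE

end Fermat.Agent.Ihara
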