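/-
IHARA track, package (VANISH) (helper5), file 1: **the class-level statement**.

`R` a complete discrete valuation ring of characteristic zero, `p ∈ 𝔪_R`; `c ≠ 0` a `θ`-local
eigenclass of level `Γ_H(N)` whose diamond character `ψ` is trivial on `H' ⊇ H ∪ ι_{q₀}((ℤ/q₀)ˣ)`,
`H'` the full preimage of `Hm ≤ (ℤ/Nm)ˣ` (`N = Nm q₀`); no `θ`-local class at level `Γ_{Hm}(Nm)`.
Then the twisted class of level `Γ₀(N'm q₀)` (transfer to `Γ_{H'}(N)`, composite twist along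
`Rl ∖ q₀`) is `q₀`-new (`ihv_twist_K`, `ihv_top_K`), hence the trace of Frobenius at `q₀` of a Galois
representation carrying the eigensystem is `± (1 + q₀)` (`ihv_class_trace`, lead's (I-c)).
-/
import Mathlib
import Fermat.Agent.Lib.Ihara.Sc.Point
import Fermat.Agent.Lib.Ihara.Tk.Main
import Fermat.Agent.Lib.Ihara.Old.Zero
import Fermat.Agent.Lib.Ihara.E.H8Class

set_option autoImplicit false
set_option linter.unusedSectionVars false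
set_option linter.unusedVariables false
set_option linter.style.haveILetI false

open Matrix MatrixGroups CongruenceSubgroup ModularCurve ModularCurve.Period Module IsLocalRing
open Fermat.Agent.DS Fermat.Agent.T1 Fermat.Agent.T1G Fermat.Agent.T2 Fermat.Agent.S53Lib
  Fermat.Agent.TW

namespace Fermat.Agent.Ihara

local notation "Qbar" => AlgebraicClosure ℚ
local notation "GQ" => (AlgebraicClosure ℚ ≃ₐ[ℚ] AlgebraicClosure ℚ)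

section Twist

variable {N : ℕ} [NeZero N] (hN6 : 6 ≤ N) {H H' : Subgroup (ZMod N)ˣ} (hle : H ≤ H')
  {I : Type} [Fintype I] (τ : IhfTrans (ihfGammaH N H) (ihfGammaH N H') I)

include hN6 hle τ in
/-- **the twisted class is `q₀`-new** (the chain `Rl'` of the twist is non-empty) -/
theorem ihv_twist_K {Rl' : List ℕ} {k : ℕ → ℕ} (hyp' : IhtcHyp N H' Rl' k) (hne : Rl' ≠ [])
    {Nm : ℕ} [NeZero Nm] {Hm : Subgroup (ZMod Nm)ˣ} {q₀ : ℕ} [hq₀F : Fact q₀.Prime]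
    (hP : IhtkPair N H' Nm Hm q₀) (hq₀ : q₀ ∉ Rl') {N'm : ℕ} [NeZero N'm]
    (hN'm : N'm = Nm * Rl'.prod) (hnd : ¬ q₀ ∣ N'm)
    (R : Type) [CommRing R] [IsDomain R] [IsDiscreteValuationRing R] [CharZero R]
    [IsAdicComplete (maximalIdeal R) R]
    {Ps Ps' : Set ℕ} (hPs : Ps' ⊆ Ps) (hq₀Ps : q₀ ∉ Ps') (θ : ℕ → R)
    (hbot : ihmPart R Nm Hm Ps' θ = ⊥)
    (ψ : (ZMod N)ˣ →* R) (hψ : ∀ d ∈ H', ψ d = 1)
    (c : IhfH R R N H) (hc0 : c ≠ 0) (hcD : ∀ d, ihmDia R N H d c = ψ d • c)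
    (hcP : c ∈ ihmPart R N H Ps θ) :
    ∃ c' : Ih4H R R (N'm * q₀), c' ≠ 0 ∧
      (∀ ℓ : ℕ, ℓ.Prime → ¬ ℓ ∣ N'm * q₀ → ∀ lam : R, ihmOp R N H ℓ c = lam • c →
        ih4Op R (N'm * q₀) ℓ c' = (ψ (ihtcZ N Rl' k ℓ) * lam) • c') ∧
      c' ∈ ih4K (ih4Cor N'm q₀ hnd R R) (ih4W N'm q₀ hnd R R) := by
  classical
  set cor := (τ.sys (ihfGammaH_mono hle)).corPar R R with hcor
  set c₁ : IhfH R R N H' := cor c with hc₁
  have hD₁ : ∀ d, ihmDia R N H' d c₁ = ψ d • c₁ := by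
    intro d
    rw [hc₁, hcor, ← ihsc_cor_dia R hle τ d c, hcD d, map_smul]
  have hc₁0 : c₁ ≠ 0 := by
    refine ihsc_cor_ne_zero R hle τ c hc0 fun d hd => ?_
    rw [hcD d, hψ d hd, one_smul]
  have hc₁P : c₁ ∈ ihmPart R N H' Ps θ := ihm_cor_mem_part R N hN6 hle τ Ps θ hcP
  obtain ⟨v, hv⟩ := List.exists_mem_of_ne_nil Rl' hne
  have hlev : N'm * q₀ = N * Rl'.prod := by rw [hN'm, hP.eq]; ring
  obtain ⟨Tw, hG, -, -, hK⟩ := ihtk_exists hyp' hv hlev hP hq₀ hN'm R R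
  obtain ⟨C, hC⟩ := ihtk_exists_C hP
  have hab := t2w_bezout Nm q₀ hP.prime hP.ndvd
  obtain ⟨W, hW⟩ := ihtk_exists_W hP (t2wA Nm q₀) (t2wC Nm q₀) hab
  obtain ⟨h1, h2⟩ := ihod_zero hP.prime hP.eq hP.ndvd hP.mem_iff R C hC W _ _ hab hW hPs hq₀Ps θ
    hbot c₁ hc₁P
  have hcard : Fintype.card (Option (Fin q₀)) = q₀ + 1 := by
    rw [Fintype.card_option, Fintype.card_fin]
  refine ⟨Tw c₁, fun h0 => hc₁0 (hG.inj ψ c₁ hD₁ h0), ?_,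
    ihtk_mem_K hnd R R hK hcard C hC W _ _ hab hW ψ c₁ hD₁ h1 h2⟩
  intro ℓ hℓ hℓN' lam hlam
  have hMN' : N ∣ N'm * q₀ := ⟨_, hlev⟩
  have hℓM : ¬ ℓ ∣ N := fun h => hℓN' (h.trans hMN')
  have h3 : ihmOp R N H' ℓ c₁ = lam • c₁ := by
    rw [hc₁, hcor, ← ihm_cor_op R N hN6 hle τ ℓ c, hlam, map_smul]
  rw [ih4Op_of_not_dvd R (N'm * q₀) hℓ hℓN']
  show (tdmSysT (N'm * q₀) ℓ hℓ hℓN').homPar R R (Tw c₁) = _
  rw [hG.T_tw ℓ hℓ hℓN' hℓM c₁]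
  have h4 : (ihfSysD N H' (ihtcZ N Rl' k ℓ)).homPar R R c₁ = ψ (ihtcZ N Rl' k ℓ) • c₁ := hD₁ _
  rw [h4, map_smul, ← ihmOp_of_not_dvd R N H' hℓ hℓM, h3, map_smul, map_smul, smul_smul]

end Twist

section Top

variable {Nm : ℕ} [NeZero Nm] {q₀ : ℕ} [hq₀F : Fact q₀.Prime] (hnd : ¬ q₀ ∣ Nm)
  (hN6 : 6 ≤ Nm * q₀) {H : Subgroup (ZMod (Nm * q₀))ˣ}
  {I : Type} [Fintype I]
  (τ : IhfTrans (ihfGammaH (Nm * q₀) H) (ihfGammaH (Nm * q₀) (⊤ : Subgroup (ZMod (Nm * q₀))ˣ)) I)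

include hN6 τ in
/-- **the transferred class of level `Γ₀(Nm q₀)` is `q₀`-new** (the edge case: no twist) -/
theorem ihv_top_K (R : Type) [CommRing R] [IsDomain R] [IsDiscreteValuationRing R] [CharZero R]
    [IsAdicComplete (maximalIdeal R) R]
    {Ps Ps' : Set ℕ} (hPs : Ps' ⊆ Ps) (hq₀Ps : q₀ ∉ Ps') (θ : ℕ → R)
    (hbot : ih4Part R Nm Ps' θ = ⊥)
    (c : IhfH R R (Nm * q₀) H) (hc0 : c ≠ 0) (hcD : ∀ d, ihmDia R (Nm * q₀) H d c = c)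
    (hcP : c ∈ ihmPart R (Nm * q₀) H Ps θ) :
    ∃ c' : Ih4H R R (Nm * q₀), c' ≠ 0 ∧
      (∀ (ℓ : ℕ) (lam : R), ihmOp R (Nm * q₀) H ℓ c = lam • c →
        ih4Op R (Nm * q₀) ℓ c' = lam • c') ∧
      c' ∈ ih4K (ih4Cor Nm q₀ hnd R R) (ih4W Nm q₀ hnd R R) := by
  classical
  set c' : Ih4H R R (Nm * q₀) := ihmCorTop R (Nm * q₀) τ c with hc'
  have hc'0 : c' ≠ 0 := by
    intro h0
    have h1 : (τ.sys (ihfGammaH_mono le_top)).corPar R R c = 0 := by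
      apply (ihmTop R (Nm * q₀)).injective
      rw [map_zero]
      exact h0
    exact ihsc_cor_ne_zero R le_top τ c hc0 (fun d _ => hcD d) h1
  have hc'P : c' ∈ ih4Part R (Nm * q₀) Ps θ :=
    (ihmTop_mem_part R (Nm * q₀) Ps θ).mpr (ihm_cor_mem_part R (Nm * q₀) hN6 le_top τ Ps θ hcP)
  have hc'P' : c' ∈ ih4Part R (Nm * q₀) Ps' θ := by
    rw [ih4_mem_part] at hc'P ⊢
    exact fun ℓ hℓ => hc'P ℓ (hPs hℓ)
  have hne : ∀ ℓ ∈ Ps', ℓ ≠ q₀ := fun ℓ hℓ h => hq₀Ps (h ▸ hℓ)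
  have hcor : ∀ y ∈ ih4Part R (Nm * q₀) Ps' θ, ih4Cor Nm q₀ hnd R R y = 0 := by
    intro y hy
    have h1 : ih4Cor Nm q₀ hnd R R y ∈ ih4Part R Nm Ps' θ := by
      rw [ih4_mem_part] at hy ⊢
      intro ℓ hℓ
      refine ih4pNil1_map (f := ih4Cor Nm q₀ hnd R R) (fun x => ?_) (hy ℓ hℓ)
      rw [LinearMap.sub_apply, LinearMap.sub_apply, map_sub, Module.algebraMap_end_apply,
        Module.algebraMap_end_apply, map_smul, ih4Op_cor R Nm q₀ hnd (hne ℓ hℓ) x]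
    rw [hbot, Submodule.mem_bot] at h1
    exact h1
  have hW : ih4W Nm q₀ hnd R R c' ∈ ih4Part R (Nm * q₀) Ps' θ := by
    rw [ih4_mem_part] at hc'P' ⊢
    intro ℓ hℓ
    refine ih4pNil1_map (f := ih4W Nm q₀ hnd R R) (fun x => ?_) (hc'P' ℓ hℓ)
    rw [LinearMap.sub_apply, LinearMap.sub_apply, map_sub, Module.algebraMap_end_apply,
      Module.algebraMap_end_apply, map_smul, ih4Op_W R Nm q₀ hnd (hne ℓ hℓ) x]
  refine ⟨c', hc'0, fun ℓ lam hlam => ?_, ih4_mem_K.mpr ⟨hcor c' hc'P', hcor _ hW⟩⟩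
  rw [hc', ← ihmCorTop_op R (Nm * q₀) hN6 τ ℓ c, hlam, map_smul]

end Top

section Main

variable (p : ℕ) [hp : Fact p.Prime]
  {R : Type} [CommRing R] [IsDomain R] [IsDiscreteValuationRing R] [CharZero R]
  [IsAdicComplete (maximalIdeal R) R]
  (hpR : (p : R) ∈ maximalIdeal R)
  {N : ℕ} [NeZero N] (hN6 : 6 ≤ N) {H H' : Subgroup (ZMod N)ˣ} (hle : H ≤ H')
  {I : Type} [Fintype I] (τ : IhfTrans (ihfGammaH N H) (ihfGammaH N H') I)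

include hpR hN6 hle τ in
/-- **(VANISH), class level**: the trace of Frobenius at `q₀` of the Galois representation carrying
the eigensystem of a `θ`-local class whose diamond character is trivial at `q₀`, when there is no
`θ`-local class at the lower level, is `± (1 + q₀)` -/
theorem ihv_class_trace {Rl : List ℕ} {k : ℕ → ℕ} (hyp : IhtcHyp N H Rl k) {q₀ : ℕ}
    (hq : q₀ ∈ Rl) (hqp : q₀ ≠ p) (hqH' : ∀ u : (ZMod q₀)ˣ, ihtcIota N q₀ u ∈ H')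
    {N' : ℕ} (hN' : N' = N * Rl.prod)
    (S : Finset ℕ) (hpS : p ∈ S) (hNS : ∀ ℓ : ℕ, ℓ.Prime → ℓ ∣ N' → ℓ ∈ S)
    {Nm : ℕ} [NeZero Nm] {Hm : Subgroup (ZMod Nm)ˣ} (hP : IhtkPair N H' Nm Hm q₀)
    {Ps Ps' : Set ℕ} (hPs : Ps' ⊆ Ps) (hq₀Ps : q₀ ∉ Ps') (θ : ℕ → R)
    (hbot : ihmPart R Nm Hm Ps' θ = ⊥)
    (ψ : (ZMod N)ˣ →* R) (hψ : ∀ d ∈ H', ψ d = 1)
    (lam : ℕ → R) (c : ↥(parabolicHoms R (ihfGammaH N H) R)) (hc0 : c ≠ 0)
    (hcD : ∀ x : (ZMod N)ˣ, (ihfSysD N H x).homPar R R c = ψ x • c)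
    (hcT : ∀ ℓ : ℕ, ℓ.Prime → ¬ ℓ ∣ N' → ℓ ∉ S →
      ihtrOp H R R (ihtcZ N Rl k) ℓ c = lam ℓ • c)
    (hcP : c ∈ ihmPart R N H Ps θ)
    (r : GQ →* Matrix (Fin 2) (Fin 2) R) (hcts : MatCts R r)
    (hfrob : ∀ ℓ : ℕ, ℓ.Prime → ℓ ∉ S → ∀ P : ValuationSubring Qbar, P.LiesOverPrime ℓ →
      ∀ φ : GQ, P.IsFrobeniusAt φ ℓ → (r φ).trace = lam ℓ ∧ (r φ).det = (ℓ : R))
    (A : ValuationSubring Qbar) (hA : A.LiesOverPrime q₀) (φ : GQ) (hφ : A.IsFrobeniusAt φ q₀)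
    (hdetφ : (r φ).det = (q₀ : R)) :
    (r φ).trace = 1 + (q₀ : R) ∨ (r φ).trace = -(1 + (q₀ : R)) := by
  classical
  haveI hqF : Fact q₀.Prime := ⟨hP.prime⟩
  have hyp' : IhtcHyp N H' (Rl.erase q₀) k := ihsc_hyp_erase hyp hq hle hqH'
  have hprod : Rl.prod = q₀ * (Rl.erase q₀).prod := (List.prod_erase hq).symm
  have hqnot : q₀ ∉ Rl.erase q₀ := hyp.nodup.not_mem_erase
  have hψq : ∀ u : (ZMod q₀)ˣ, ψ (ihtcIota N q₀ u) = 1 := fun u => hψ _ (hqH' u)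
  have hψu : ∀ d : (ZMod N)ˣ, ψ d⁻¹ * ψ d = 1 := fun d => by
    rw [← map_mul, inv_mul_cancel, map_one]
  -- the eigenvalues of the untwisted operators
  have hcT' : ∀ ℓ : ℕ, ℓ.Prime → ℓ ∉ S →
      ihmOp R N H ℓ c = (ψ (ihtcZ N Rl k ℓ)⁻¹ * lam ℓ) • c := by
    intro ℓ hℓ hℓS
    have hℓN' : ¬ ℓ ∣ N' := fun h => hℓS (hNS ℓ hℓ h)
    have hℓN : ¬ ℓ ∣ N := fun h => hℓN' (h.trans ⟨_, hN'⟩)
    have h1 := hcT ℓ hℓ hℓN' hℓS
    rw [ihtrOp_of H R R _ hℓ hℓN, LinearMap.comp_apply, hcD, map_smul,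
      ← ihmOp_of_not_dvd R N H hℓ hℓN] at h1
    rw [mul_smul, ← h1, smul_smul, hψu, one_smul]
  -- the `q₀`-new class of level `Γ₀(N'm q₀)`
  obtain ⟨N'm, hN'm0, hndN'm, hdvd, c', hc'0, hT', hK⟩ :
      ∃ (N'm : ℕ) (_ : NeZero N'm) (hnd : ¬ q₀ ∣ N'm), N'm * q₀ ∣ N' ∧
        ∃ c' : Ih4H R R (N'm * q₀), c' ≠ 0 ∧
          (∀ ℓ : ℕ, ℓ.Prime → ℓ ∉ S → ih4Op R (N'm * q₀) ℓ c' = lam ℓ • c') ∧
          c' ∈ ih4K (ih4Cor N'm q₀ hnd R R) (ih4W N'm q₀ hnd R R) := by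
    by_cases hne : Rl.erase q₀ = []
    · -- the edge case: no twist
      have hH' : H' = ⊤ := by
        rw [eq_top_iff]
        intro x _
        exact hyp'.supp x (fun s hs => by rw [hne] at hs; cases hs)
      subst hH'
      have hHm : Hm = ⊤ := by
        rw [eq_top_iff]
        intro y _
        obtain ⟨x, rfl⟩ := ZMod.unitsMap_surjective hP.dvd y
        exact (hP.mem_iff hP.dvd x).mp (Subgroup.mem_top x)
      subst hHm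
      have heq := hP.eq
      subst heq
      have hbot' : ih4Part R Nm Ps' θ = ⊥ := by
        rw [eq_bot_iff]
        intro x hx
        have h1 : (ihmTop R Nm).symm x ∈ ihmPart R Nm ⊤ Ps' θ := by
          rw [← ihmTop_mem_part, LinearEquiv.apply_symm_apply]
          exact hx
        rw [hbot, Submodule.mem_bot] at h1
        rw [Submodule.mem_bot, ← (ihmTop R Nm).apply_symm_apply x, h1, map_zero]
      have hcD'' : ∀ d, ihmDia R (Nm * q₀) H d c = c := fun d => by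
        show (ihfSysD (Nm * q₀) H d).homPar R R c = c
        rw [hcD d, hψ d (Subgroup.mem_top d), one_smul]
      obtain ⟨c', hc'0, hT, hK⟩ := ihv_top_K hP.ndvd hN6 τ R hPs hq₀Ps θ hbot' c hc0 hcD'' hcP
      refine ⟨Nm, inferInstance, hP.ndvd, ⟨Rl.prod, hN'⟩, c', hc'0, fun ℓ hℓ hℓS => ?_, hK⟩
      rw [hT ℓ _ (hcT' ℓ hℓ hℓS), hψ _ (Subgroup.mem_top _), one_mul]
    · -- the twist along `Rl ∖ q₀`
      have hprod0 : (Rl.erase q₀).prod ≠ 0 := by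
        intro h0
        exact (hyp'.prime 0 (List.prod_eq_zero_iff.mp h0)).ne_zero rfl
      have hnd : ¬ q₀ ∣ Nm * (Rl.erase q₀).prod := by
        intro h
        rcases (Nat.Prime.dvd_mul hP.prime).mp h with h1 | h1
        · exact hP.ndvd h1
        · obtain ⟨a, ha, hqa⟩ := (Prime.dvd_prod_iff hP.prime.prime).mp h1
          have h2 : q₀ = a := (Nat.prime_dvd_prime_iff_eq hP.prime (hyp'.prime a ha)).mp hqa
          exact hqnot (h2 ▸ ha)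
      haveI : NeZero (Nm * (Rl.erase q₀).prod) := ⟨Nat.mul_ne_zero (NeZero.ne Nm) hprod0⟩
      obtain ⟨c', hc'0, hT, hK⟩ := ihv_twist_K hN6 hle τ hyp' hne hP hqnot rfl hnd R hPs hq₀Ps θ
        hbot ψ hψ c hc0 hcD hcP
      have hlev : Nm * (Rl.erase q₀).prod * q₀ ∣ N' :=
        ⟨q₀, by rw [hN', hprod, hP.eq]; ring⟩
      refine ⟨Nm * (Rl.erase q₀).prod, inferInstance, hnd, hlev, c', hc'0, fun ℓ hℓ hℓS => ?_, hK⟩
      have hℓN' : ¬ ℓ ∣ N' := fun h => hℓS (hNS ℓ hℓ h)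
      rw [hT ℓ hℓ (fun h => hℓN' (h.trans hlev)) _ (hcT' ℓ hℓ hℓS),
        ← ihsc_char_Z_erase ψ hq hψq ℓ, ← mul_assoc, mul_comm (ψ _), hψu, one_mul]
  haveI := hN'm0
  have hNS' : ∀ ℓ : ℕ, ℓ.Prime → ℓ ∣ N'm * q₀ → ℓ ∈ S := fun ℓ hℓ h => hNS ℓ hℓ (h.trans hdvd)
  exact ihe_trace_frob_class p N'm q₀ hndN'm hqp S hpS hNS' hpR lam r hcts hfrob c' hc'0
    (fun ℓ hℓ hℓN hℓS => by
      have h1 := hT' ℓ hℓ hℓS
      rw [ih4Op_of_not_dvd R (N'm * q₀) hℓ hℓN] at h1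
      exact h1) A hA φ hφ hdetφ hK

end Main

end Fermat.Agent.Ihara
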